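import Mathlib.RingTheory.MvPowerSeries.Inverse
import Mathlib.RingTheory.DiscreteValuationRing.Basic
import Mathlib.RingTheory.Regular.RegularSequence
import Mathlib.RingTheory.RegularLocalRing.Defs

/-!
# Variables and a uniformiser as a regular sequence on `𝒪⟦X₁,…,Xᵣ⟧`

`isWeaklyRegular_X_C`: `X₁, …, Xᵣ, c` is weakly regular for `c ≠ 0`; also generators of the
maximal ideal (`maximalIdeal_eq_span_C_X`). Used by `PatchingDescent` and in level lowering.
-/

set_option autoImplicit false

namespace FLTAgent.RTAlgebra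

open MvPowerSeries RingTheory.Sequence IsLocalRing

variable {σ O : Type} [CommRing O]

lemma mem_span_X_image_iff (s : Finset σ) (f : MvPowerSeries σ O) :
    f ∈ Ideal.span ((fun j => (X j : MvPowerSeries σ O)) '' (s : Set σ)) ↔
      ∀ d : σ →₀ ℕ, (∀ j ∈ s, d j = 0) → coeff d f = 0 := by
  classical
  induction s using Finset.induction_on generalizing f with
  | empty =>
    simp [MvPowerSeries.ext_iff]
  | @insert a s has ih =>
    rw [Finset.coe_insert, Set.image_insert_eq, Ideal.mem_span_insert]
    constructor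
    · rintro ⟨c, z, hz, rfl⟩ d hd
      have h1 : coeff d (c * X a) = 0 :=
        X_dvd_iff.mp ⟨c, mul_comm _ _⟩ d (hd a (Finset.mem_insert_self _ _))
      have h2 := (ih z).mp hz d fun j hj => hd j (Finset.mem_insert_of_mem hj)
      rw [map_add, h1, h2, add_zero]
    · intro h
      let z : MvPowerSeries σ O := fun d => if d a = 0 then coeff d f else 0
      have hzc : ∀ d, coeff d z = if d a = 0 then coeff d f else 0 := fun d => rfl
      have hdvd : (X a : MvPowerSeries σ O) ∣ f - z :=
        X_dvd_iff.mpr fun d hd => by rw [map_sub, hzc, if_pos hd, sub_self]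
      obtain ⟨c, hc⟩ := hdvd
      refine ⟨c, z, (ih z).mpr fun d hd => ?_, by rw [mul_comm, ← hc, sub_add_cancel]⟩
      rw [hzc]
      split_ifs with hda
      · refine h d fun j hj => ?_
        rcases Finset.mem_insert.mp hj with rfl | hj
        · exact hda
        · exact hd j hj
      · rfl

lemma isSMulRegular_X_quotient (s : Finset σ) {i : σ} (hi : i ∉ s) :
    IsSMulRegular (MvPowerSeries σ O ⧸
        (Ideal.span ((fun j => (X j : MvPowerSeries σ O)) '' (s : Set σ)) • ⊤ :
          Submodule (MvPowerSeries σ O) (MvPowerSeries σ O))) (X i : MvPowerSeries σ O) := by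
  classical
  rw [smul_eq_mul, Ideal.mul_top, isSMulRegular_quotient_iff_mem_of_smul_mem]
  intro f hf
  rw [mem_span_X_image_iff] at hf ⊢
  intro d hd
  have := hf (Finsupp.single i 1 + d) fun j hj => by
    simp [hd j hj, show i ≠ j from fun e => hi (e ▸ hj)]
  rwa [smul_eq_mul, X_def, coeff_add_monomial_mul, one_mul] at this

lemma isSMulRegular_C_quotient [Fintype σ] [IsDomain O] {c : O} (hc : c ≠ 0) :
    IsSMulRegular (MvPowerSeries σ O ⧸
        (Ideal.span ((fun j => (X j : MvPowerSeries σ O)) '' (Set.univ : Set σ)) • ⊤ :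
          Submodule (MvPowerSeries σ O) (MvPowerSeries σ O))) (C c : MvPowerSeries σ O) := by
  classical
  rw [smul_eq_mul, Ideal.mul_top, isSMulRegular_quotient_iff_mem_of_smul_mem,
    ← Finset.coe_univ]
  intro f hf
  rw [mem_span_X_image_iff] at hf ⊢
  intro d hd
  have := hf d hd
  rw [smul_eq_mul, coeff_C_mul] at this
  exact (mul_eq_zero.mp this).resolve_left hc

lemma maximalIdeal_eq_span_C_X [Fintype σ] [IsLocalRing O] {c : O}
    (hc : maximalIdeal O = Ideal.span {c}) :
    maximalIdeal (MvPowerSeries σ O) =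
      Ideal.span (insert (C c) (Set.range fun j => (X j : MvPowerSeries σ O))) := by
  classical
  refine le_antisymm (fun f hf => ?_) (Ideal.span_le.mpr ?_)
  · have h0 : constantCoeff f ∈ maximalIdeal O := by
      rw [IsLocalRing.mem_maximalIdeal, mem_nonunits_iff] at hf ⊢
      rwa [MvPowerSeries.isUnit_iff_constantCoeff] at hf
    rw [hc, Ideal.mem_span_singleton'] at h0
    obtain ⟨a, ha⟩ := h0
    have h1 : f - C (constantCoeff f) ∈
        Ideal.span ((fun j => (X j : MvPowerSeries σ O)) ''
          ((Finset.univ : Finset σ) : Set σ)) := by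
      rw [mem_span_X_image_iff]
      intro d hd
      have hd0 : d = 0 := Finsupp.ext fun j => hd j (Finset.mem_univ j)
      subst hd0
      rw [map_sub, MvPowerSeries.coeff_C, if_pos rfl,
        MvPowerSeries.coeff_zero_eq_constantCoeff_apply,
        sub_self]
    rw [Finset.coe_univ, Set.image_univ] at h1
    rw [Ideal.mem_span_insert]
    exact ⟨C a, _, h1, by rw [← map_mul, ha, add_sub_cancel]⟩
  · intro x hx
    rw [SetLike.mem_coe, IsLocalRing.mem_maximalIdeal, mem_nonunits_iff,
      MvPowerSeries.isUnit_iff_constantCoeff]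
    rcases hx with rfl | ⟨j, rfl⟩
    · rw [constantCoeff_C, ← mem_nonunits_iff, ← IsLocalRing.mem_maximalIdeal, hc]
      exact Ideal.mem_span_singleton_self c
    · rw [constantCoeff_X]
      exact not_isUnit_zero

lemma spanFinrank_maximalIdeal_powerSeries_le [IsLocalRing O] {c : O}
    (hc : maximalIdeal O = Ideal.span {c}) (r : ℕ) :
    (maximalIdeal (MvPowerSeries (Fin r) O)).spanFinrank ≤ r + 1 := by
  rw [maximalIdeal_eq_span_C_X hc]
  refine (Submodule.spanFinrank_span_le_ncard_of_finite (Set.toFinite _)).trans ?_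
  refine (Set.ncard_insert_le _ _).trans (Nat.add_le_add_right ?_ 1)
  rw [← Set.image_univ]
  refine (Set.ncard_image_le Set.finite_univ).trans ?_
  rw [Set.ncard_univ, Nat.card_fin]

/-- `X₁, …, Xᵣ, c` is a weakly regular sequence on `O⟦X₁,…,Xᵣ⟧` for `c ≠ 0`. -/
lemma isWeaklyRegular_X_C [IsDomain O] {c : O} (hc : c ≠ 0) (r : ℕ) :
    IsWeaklyRegular (MvPowerSeries (Fin r) O)
      (List.ofFn (fun i => (X i : MvPowerSeries (Fin r) O)) ++ [C c]) := by
  classical
  rw [isWeaklyRegular_append_iff, isWeaklyRegular_singleton_iff]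
  constructor
  · rw [isWeaklyRegular_iff]
    intro i hi
    have hi' : i < r := by simpa using hi
    let s : Finset (Fin r) := Finset.univ.filter (fun j => j.val < i)
    have hs : Ideal.ofList ((List.ofFn fun i => (X i : MvPowerSeries (Fin r) O)).take i) =
        Ideal.span ((fun j => (X j : MvPowerSeries (Fin r) O)) '' (s : Set (Fin r))) := by
      refine congrArg Ideal.span (Set.ext fun f => ?_)
      simp only [Set.mem_ofPred_eq, List.mem_take_iff_getElem, List.getElem_ofFn, Set.mem_image,
        Finset.coe_filter, Finset.mem_univ, true_and, s, List.length_ofFn]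
      constructor
      · rintro ⟨j, hj, rfl⟩
        exact ⟨⟨j, (lt_min_iff.mp hj).2⟩, (lt_min_iff.mp hj).1, rfl⟩
      · rintro ⟨j, hj, rfl⟩
        exact ⟨j.val, lt_min hj j.isLt, rfl⟩
    rw [hs, List.getElem_ofFn]
    exact isSMulRegular_X_quotient s (by simp [s])
  · have hs : Ideal.ofList (List.ofFn fun i => (X i : MvPowerSeries (Fin r) O)) =
        Ideal.span ((fun j => (X j : MvPowerSeries (Fin r) O)) '' Set.univ) := by
      refine congrArg Ideal.span (Set.ext fun f => ?_)
      simp [List.mem_ofFn]
    rw [hs]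
    exact isSMulRegular_C_quotient hc

end FLTAgent.RTAlgebra
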