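import Mathlib.RingTheory.Depth.Rees
import Mathlib.RingTheory.Regular.Free
import Mathlib.RingTheory.Regular.IsSMulRegular
import Mathlib.RingTheory.Ideal.Cotangent
import Mathlib.RingTheory.RegularLocalRing.Defs
import Mathlib.RingTheory.Ideal.AssociatedPrime.Finiteness
import Mathlib.RingTheory.Noetherian.Basic

/-!
# A regular sequence as long as the embedding dimension forces freeness

`free_of_regular_sequence`: if the maximal ideal of a Noetherian local ring is generated by `n`
elements and a finite module has a regular sequence of length `n`, the module is free. This is the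
Auslander–Buchsbaum step of patching.
-/

set_option autoImplicit false

namespace FLTAgent.RTAlgebra

open CategoryTheory Abelian Limits Pointwise RingTheory.Sequence IsLocalRing

/-- If `M` has a regular sequence of length `n + 1` and `x` is regular on `M`, then `M/xM` has a
regular sequence of length `n`. -/
lemma exists_regular_quotSMulTop {R : Type} [CommRing R] [IsLocalRing R] [IsNoetherianRing R]
    {M : Type} [AddCommGroup M] [Module R M] [Module.Finite R M] {n : ℕ}
    {rs : List R} (hlen : rs.length = n + 1) (hmem : ∀ a ∈ rs, a ∈ maximalIdeal R)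
    (hreg : IsRegular M rs) {x : R} (hx : x ∈ maximalIdeal R) (hxreg : IsSMulRegular M x) :
    ∃ ts : List R, ts.length = n ∧ (∀ a ∈ ts, a ∈ maximalIdeal R) ∧
      IsRegular (QuotSMulTop x M) ts := by
  have : Nontrivial M := hreg.nontrivial
  have : Nontrivial (QuotSMulTop x M) := nontrivial_quotSMulTop_of_mem_maximalIdeal M hx
  let K : ModuleCat.{0} R := ModuleCat.of R (ResidueField R)
  have : Module.Finite R K :=
    Module.Finite.of_surjective (Algebra.linearMap R (ResidueField R))
      IsLocalRing.residue_surjective
  have hsupp : Module.support R K = PrimeSpectrum.zeroLocus (maximalIdeal R) := by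
    show Module.support R (R ⧸ maximalIdeal R) = _
    rw [Module.support_eq_zeroLocus, Ideal.annihilator_quotient]
  have hlt : ∀ (P : Type) [AddCommGroup P] [Module R P] [Module.Finite R P] [Nontrivial P],
      maximalIdeal R • (⊤ : Submodule R P) < ⊤ := fun P _ _ _ _ =>
    (Submodule.top_ne_ideal_smul_of_le_jacobson_annihilator
      (maximalIdeal_le_jacobson _)).symm.lt_top
  have hExt := ModuleCat.subsingleton_ext_of_exists_isRegular (maximalIdeal R) K hsupp.subset
    (ModuleCat.of R M) (hlt M) rs hmem hreg
  have hExt' : ∀ i < n, Subsingleton (Ext K (ModuleCat.of R (QuotSMulTop x M)) i) := by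
    intro i hi
    have zero1 := AddCommGrpCat.isZero_of_iff_subsingleton.mpr (hExt i (by omega))
    have zero2 := AddCommGrpCat.isZero_of_iff_subsingleton.mpr (hExt (i + 1) (by omega))
    exact AddCommGrpCat.subsingleton_of_isZero <| ShortComplex.Exact.isZero_of_both_zeros
      ((Ext.covariant_sequence_exact₃' K
        (IsSMulRegular.smulShortComplex_shortExact (M := ModuleCat.of R M) hxreg)) i (i + 1) rfl)
      (zero1.eq_zero_of_src _) (zero2.eq_zero_of_tgt _)
  exact ModuleCat.exists_isRegular_of_exists_subsingleton_ext (maximalIdeal R) n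
    (ModuleCat.of R (QuotSMulTop x M)) (hlt _) K hsupp hExt'

/-- An element of the maximal ideal which is regular on `M` and is not in the square of the
maximal ideal. -/
lemma exists_regular_notMem_sq {R : Type} [CommRing R] [IsLocalRing R] [IsNoetherianRing R]
    {M : Type} [AddCommGroup M] [Module R M] [Module.Finite R M] [Nontrivial M]
    {a : R} (ha : a ∈ maximalIdeal R) (hareg : IsSMulRegular M a) :
    ∃ x ∈ maximalIdeal R, IsSMulRegular M x ∧ x ∉ maximalIdeal R ^ 2 := by
  classical
  have ha0 : a ≠ 0 := by
    rintro rfl
    exact not_subsingleton M (IsSMulRegular.zero_iff_subsingleton.mp hareg)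
  have hfin : (associatedPrimes R M).Finite := associatedPrimes.finite R M
  by_contra hcon
  push Not at hcon
  have hsub : (maximalIdeal R : Set R) ⊆
      ⋃ i ∈ (↑(insert (maximalIdeal R ^ 2) hfin.toFinset) : Set (Ideal R)), id i := by
    intro x hx
    by_cases hxr : IsSMulRegular M x
    · exact Set.mem_biUnion (Finset.mem_coe.mpr (Finset.mem_insert_self _ _)) (hcon x hx hxr)
    · have : x ∈ ⋃ p ∈ associatedPrimes R M, (p : Set R) := by
        rw [biUnion_associatedPrimes_eq_compl_regular R M]
        exact hxr
      obtain ⟨p, hp, hxp⟩ := Set.mem_iUnion₂.mp this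
      exact Set.mem_biUnion
        (Finset.mem_coe.mpr (Finset.mem_insert_of_mem (hfin.mem_toFinset.mpr hp))) hxp
  obtain ⟨i, hi, hle⟩ := (Ideal.subset_union_prime (f := id) (maximalIdeal R ^ 2)
    (maximalIdeal R ^ 2) (by
      intro i hi h _
      exact ((Set.Finite.mem_toFinset _).mp ((Finset.mem_insert.mp hi).resolve_left h)).isPrime)).mp
    hsub
  rcases Finset.mem_insert.mp hi with rfl | hi
  · apply ha0
    have hbot : maximalIdeal R = ⊥ := by
      apply Submodule.eq_bot_of_le_smul_of_le_jacobson_bot (maximalIdeal R) _
        (IsNoetherian.noetherian _)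
      · simpa [pow_two, smul_eq_mul] using hle
      · exact IsLocalRing.maximalIdeal_le_jacobson _
    simpa [hbot] using ha
  · have : a ∈ ⋃ p ∈ associatedPrimes R M, (p : Set R) :=
      Set.mem_biUnion (hfin.mem_toFinset.mp hi) (hle ha)
    rw [biUnion_associatedPrimes_eq_compl_regular R M] at this
    exact this hareg

/-- A part of a minimal generating set can be completed. -/
lemma exists_generators_with {R : Type} [CommRing R] [IsLocalRing R] [IsNoetherianRing R]
    {n : ℕ} (hn : (maximalIdeal R).spanFinrank ≤ n + 1) {x : R} (hx : x ∈ maximalIdeal R)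
    (hx2 : x ∉ maximalIdeal R ^ 2) :
    ∀ [IsLocalRing (R ⧸ Ideal.span {x})],
      (maximalIdeal (R ⧸ Ideal.span {x})).spanFinrank ≤ n := by
  intro _
  classical
  set m := maximalIdeal R with hm
  let xc : CotangentSpace R := m.toCotangent ⟨x, hx⟩
  have hxc : xc ≠ 0 := fun h => hx2 ((Ideal.toCotangent_eq_zero m ⟨x, hx⟩).mp h)
  have hfr : Module.finrank (ResidueField R) (CotangentSpace R) ≤ n + 1 :=
    (IsLocalRing.spanFinrank_maximalIdeal_eq_finrank_cotangentSpace (R := R)).symm.trans_le hn
  let W : Submodule (ResidueField R) (CotangentSpace R) := Submodule.span _ {xc}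
  have hW : Module.finrank (ResidueField R) W = 1 := finrank_span_singleton hxc
  have hq : Module.finrank (ResidueField R) (CotangentSpace R ⧸ W) ≤ n := by
    have := Submodule.finrank_quotient_add_finrank W
    omega
  let b := Module.finBasis (ResidueField R) (CotangentSpace R ⧸ W)
  choose v hv using fun i => Submodule.mkQ_surjective W (b i)
  choose y hy using fun i => Ideal.toCotangent_surjective m (v i)
  let T : Set m := insert ⟨x, hx⟩ (Set.range y)
  have htop : Submodule.span (ResidueField R) (m.toCotangent '' T) = ⊤ := by
    rw [eq_top_iff]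
    intro z _
    have hz : W.mkQ z ∈ Submodule.map W.mkQ (Submodule.span (ResidueField R) (Set.range v)) := by
      rw [Submodule.map_span, ← Set.range_comp]
      have : (W.mkQ ∘ v) = b := funext hv
      rw [this, b.span_eq]
      exact Submodule.mem_top
    obtain ⟨w, hw, hwz⟩ := Submodule.mem_map.mp hz
    have hzw : z - w ∈ W := by
      rw [← Submodule.ker_mkQ W, LinearMap.mem_ker, map_sub, hwz, sub_self]
    have h1 : W ≤ Submodule.span (ResidueField R) (m.toCotangent '' T) :=
      Submodule.span_mono (Set.singleton_subset_iff.mpr ⟨_, Set.mem_insert _ _, rfl⟩)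
    have h2 : Set.range v ⊆ m.toCotangent '' T := by
      rintro _ ⟨i, rfl⟩
      exact ⟨y i, Set.mem_insert_of_mem _ ⟨i, rfl⟩, hy i⟩
    simpa using Submodule.add_mem _ (h1 hzw) (Submodule.span_mono h2 hw)
  have hT : Submodule.span R T = ⊤ := CotangentSpace.span_image_eq_top_iff.mp htop
  have hspan : m = Ideal.span (insert x (Set.range fun i => (y i : R))) := by
    have := congrArg (Submodule.map m.subtype) hT
    rw [Submodule.map_span, Submodule.map_subtype_top] at this
    refine this.symm.trans (congrArg Ideal.span ?_)
    simp only [T, Set.image_insert_eq, ← Set.range_comp]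
    rfl
  let q := Ideal.Quotient.mk (Ideal.span {x})
  have hle : Ideal.span {x} ≤ m := (Ideal.span_singleton_le_iff_mem m).mpr hx
  have hmax : maximalIdeal (R ⧸ Ideal.span {x}) = Ideal.span (Set.range fun i => q (y i : R)) := by
    have hq0 : q x = 0 := Ideal.Quotient.eq_zero_iff_mem.mpr (Ideal.mem_span_singleton_self x)
    rw [← IsLocalRing.map_maximalIdeal_of_surjective q Ideal.Quotient.mk_surjective]
    refine (congrArg (Ideal.map q) hspan).trans ?_
    rw [Ideal.map_span, Set.image_insert_eq, hq0, Ideal.span_insert_zero, ← Set.range_comp]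
    rfl
  rw [hmax]
  refine (Submodule.spanFinrank_span_le_ncard_of_finite (Set.finite_range _)).trans ?_
  rw [← Set.image_univ]
  refine (Set.ncard_image_le Set.finite_univ).trans ?_
  rw [Set.ncard_univ, Nat.card_fin]
  exact hq

/-- If the maximal ideal of a Noetherian local ring is generated by `n` elements and a finite
module has a regular sequence of length `n`, then the module is free. -/
theorem free_of_regular_sequence (n : ℕ) :
    ∀ (R : Type) [CommRing R] [IsLocalRing R] [IsNoetherianRing R],
      (maximalIdeal R).spanFinrank ≤ n →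
      ∀ (M : Type) [AddCommGroup M] [Module R M] [Module.Finite R M] (rs : List R),
        rs.length = n → (∀ a ∈ rs, a ∈ maximalIdeal R) → IsRegular M rs → Module.Free R M := by
  induction n with
  | zero =>
    intro R _ _ _ hdim M _ _ _ rs _ _ _
    have hbot : maximalIdeal R = ⊥ :=
      (Submodule.spanFinrank_eq_zero_iff_eq_bot (IsNoetherian.noetherian _)).mp (by omega)
    let := ((IsLocalRing.isField_iff_maximalIdeal_eq (R := R)).mpr hbot).toField
    exact Module.Free.of_divisionRing R M
  | succ n ih =>
    intro R _ _ _ hdim M _ _ _ rs hlen hmem hreg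
    have : Nontrivial M := hreg.nontrivial
    obtain ⟨a, rest, rfl⟩ := List.exists_cons_of_length_eq_add_one hlen
    obtain ⟨x, hx, hxreg, hx2⟩ := exists_regular_notMem_sq (M := M) (hmem a List.mem_cons_self)
      ((isRegular_cons_iff M a rest).mp hreg).1
    obtain ⟨ts, htlen, htmem, htreg⟩ := exists_regular_quotSMulTop hlen hmem hreg hx hxreg
    have hle : Ideal.span {x} ≤ maximalIdeal R :=
      (Ideal.span_singleton_le_iff_mem _).mpr hx
    have : Nontrivial (R ⧸ Ideal.span {x}) :=
      Ideal.Quotient.nontrivial_iff.mpr
        (ne_top_of_le_ne_top (Ideal.IsPrime.ne_top inferInstance) hle)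
    have : IsLocalRing (R ⧸ Ideal.span {x}) :=
      IsLocalRing.of_surjective' (Ideal.Quotient.mk _) Ideal.Quotient.mk_surjective
    have : IsNoetherianRing (R ⧸ Ideal.span {x}) :=
      isNoetherianRing_of_surjective R _ (Ideal.Quotient.mk _) Ideal.Quotient.mk_surjective
    have : Module.Finite (R ⧸ Ideal.span {x}) (QuotSMulTop x M) :=
      Module.Finite.of_restrictScalars_finite R _ _
    have : Nontrivial (QuotSMulTop x M) := htreg.nontrivial
    have hmapmem : ∀ b ∈ ts.map (algebraMap R (R ⧸ Ideal.span {x})),
        b ∈ maximalIdeal (R ⧸ Ideal.span {x}) := by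
      intro b hb
      obtain ⟨c, hc, rfl⟩ := List.mem_map.mp hb
      rw [← IsLocalRing.map_maximalIdeal_of_surjective (Ideal.Quotient.mk _)
        Ideal.Quotient.mk_surjective]
      exact Ideal.mem_map_of_mem _ (htmem c hc)
    have : Module.Free (R ⧸ Ideal.span {x}) (QuotSMulTop x M) :=
      ih (R ⧸ Ideal.span {x}) (exists_generators_with hdim hx hx2) (QuotSMulTop x M)
        (ts.map (algebraMap R (R ⧸ Ideal.span {x}))) (by rw [List.length_map]; exact htlen) hmapmem
        (IsRegular.of_isWeaklyRegular_of_mem_maximalIdeal (QuotSMulTop x M) hmapmem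
          ((isWeaklyRegular_map_algebraMap_iff (R ⧸ Ideal.span {x}) (QuotSMulTop x M) ts).mpr
            htreg.toIsWeaklyRegular))
    have : Module.FinitePresentation R M := Module.finitePresentation_of_finite R M
    exact (Module.free_quotSMulTop_iff_free R M
      (by rw [IsLocalRing.jacobson_eq_maximalIdeal (⊥ : Ideal R) bot_ne_top]; exact hx) hxreg).mp
        inferInstance

end FLTAgent.RTAlgebra
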