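import Fermat.Prelude.Def_Algebra_PatchingDatum
import Fermat.Agent.RTAlgebra.FreeOfRegular
import Fermat.Agent.RTAlgebra.PowerSeriesRegular
import Mathlib.RingTheory.Flat.Basic
import Mathlib.RingTheory.Ideal.Finsupp
import Mathlib.RingTheory.MvPowerSeries.Equiv

/-!
# The descent step of patching

The patched module of a patching level over the zero ideal is free over the power series ring
(`level_free`). Hence `free_and_ker_eq`: the original module is free and faithful and the kernel
is the augmentation ideal `augIdeal`. Used in S57.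
-/

set_option autoImplicit false

namespace FLTAgent.RTAlgebra

open MvPowerSeries RingTheory.Sequence IsLocalRing Algebra

/-- A weakly regular sequence on a ring stays weakly regular on a finite free module over it. -/
lemma isWeaklyRegular_pi {A : Type} [CommRing A] {rs : List A} (h : IsWeaklyRegular A rs)
    (d : ℕ) : IsWeaklyRegular (Fin d → A) rs :=
  ((TensorProduct.rid A (Fin d → A)).isWeaklyRegular_congr rs).mp
    (h.isWeaklyRegular_lTensor (M₂ := (Fin d → A)))

variable {O : Type} [CommRing O] [IsDomain O] [IsDiscreteValuationRing O]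
  {r : ℕ} {R : Type} [CommRing R] [Algebra O R]
  {M : Type} [AddCommGroup M] [Module R M] [Nontrivial M]
  (L : Algebra.PatchingLevel O r R M ⊥)

/-- The ideal generated by the distinguished elements of a patching level. -/
noncomputable def augIdeal : Ideal (MvPowerSeries (Fin r) O) :=
  Ideal.span (Set.range fun i : Fin r => L.φ (MvPowerSeries.X i))

lemma level_free : Module.Finite (MvPowerSeries (Fin r) O) L.N ∧
    Module.Free (MvPowerSeries (Fin r) O) L.N := by
  have : Nontrivial L.N := L.π_surjective.nontrivial
  have : Module.Finite (MvPowerSeries (Fin r) O) L.N := by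
    refine Module.finite_def.mpr ⟨(Set.finite_range L.b).toFinset, ?_⟩
    rw [Set.Finite.coe_toFinset, _root_.eq_top_iff]
    intro x _
    obtain ⟨c, rfl⟩ := L.b_span x
    exact Submodule.sum_mem _ fun i _ =>
      Submodule.smul_mem _ _ (Submodule.subset_span (Set.mem_range_self i))
  have : Nontrivial R := Module.nontrivial R M
  refine ⟨inferInstance, ?_⟩
  let e₀ : (Fin L.d → MvPowerSeries (Fin r) O) →+ L.N :=
    { toFun := fun c => ∑ i, L.φ (c i) • L.b i
      map_zero' := by simp
      map_add' := fun c c' => by simp [add_smul, Finset.sum_add_distrib] }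
  have he₀inj : Function.Injective e₀ := by
    rw [injective_iff_map_eq_zero]
    intro c hc
    funext i
    simpa using (L.b_rel c).mp hc i
  have he₀surj : Function.Surjective e₀ := fun x => by
    obtain ⟨c, hc⟩ := L.b_span x
    exact ⟨c, hc.symm⟩
  let e := AddEquiv.ofBijective e₀ ⟨he₀inj, he₀surj⟩
  obtain ⟨ϖ, hϖ⟩ := IsDiscreteValuationRing.exists_irreducible O
  have hm : maximalIdeal O = Ideal.span {ϖ} := hϖ.maximalIdeal_eq
  have hwr := isWeaklyRegular_pi (isWeaklyRegular_X_C hϖ.ne_zero r) L.d
  set xs := List.ofFn (fun i => (X i : MvPowerSeries (Fin r) O)) ++ [C ϖ] with hxs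
  have hwrN : IsWeaklyRegular L.N (xs.map L.φ) := by
    refine ((e.isWeaklyRegular_congr (List.forall₂_map_right_iff.mpr
      (List.forall₂_same.mpr fun a _ c => ?_))).mp hwr)
    show ∑ i, L.φ ((a • c) i) • L.b i = L.φ a • ∑ i, L.φ (c i) • L.b i
    simp [Finset.smul_sum, mul_smul]
  have hmem : ∀ a ∈ xs.map L.φ, a ∈ maximalIdeal (MvPowerSeries (Fin r) O) := by
    intro a ha
    obtain ⟨b, hb, rfl⟩ := List.mem_map.mp ha
    rcases List.mem_append.mp hb with hb | hb
    · obtain ⟨i, rfl⟩ := List.mem_ofFn.mp hb
      rw [IsLocalRing.mem_maximalIdeal]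
      intro hu
      have := hu.map L.ψ
      rw [L.ψ_φ_X i] at this
      exact not_isUnit_zero this
    · obtain rfl := List.mem_singleton.mp hb
      have hC : L.φ (C ϖ) = C ϖ := L.φ.commutes ϖ
      rw [hC, maximalIdeal_eq_span_C_X hm]
      exact Ideal.subset_span (Set.mem_insert _ _)
  exact free_of_regular_sequence (r + 1) _ (spanFinrank_maximalIdeal_powerSeries_le hm r) L.N
    (xs.map L.φ) (by simp [hxs]) hmem
    (IsRegular.of_isWeaklyRegular_of_mem_maximalIdeal L.N hmem hwrN)

/-- The descent step of patching: the module is free and faithful and the kernel is the augmentation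
ideal. -/
theorem free_and_ker_eq :
    Module.Free R M ∧ Module.annihilator R M = ⊥ ∧ RingHom.ker L.ψ = augIdeal L := by
  obtain ⟨_, _⟩ := level_free L
  have : Nontrivial L.N := L.π_surjective.nontrivial
  let bN := Module.Free.chooseBasis (MvPowerSeries (Fin r) O) L.N
  obtain ⟨i₀⟩ := bN.index_nonempty
  set I := augIdeal L with hI
  have hcoord : ∀ x : L.N, L.π x = 0 → ∀ i, bN.repr x i ∈ I := by
    intro x hx i
    have hx' : x ∈ I • (⊤ : Submodule _ L.N) := (L.ker_π x).mp hx
    refine Submodule.smul_induction_on hx' (fun a ha y _ => ?_) (fun y z hy hz => ?_)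
    · rw [map_smul, Finsupp.smul_apply, smul_eq_mul]
      exact I.mul_mem_right _ ha
    · rw [map_add, Finsupp.add_apply]
      exact I.add_mem hy hz
  have hIker : I ≤ RingHom.ker L.ψ := Ideal.span_le.mpr (by
    rintro _ ⟨i, rfl⟩
    exact L.ψ_φ_X i)
  have hker : RingHom.ker L.ψ = I := by
    refine le_antisymm (fun f hf => ?_) hIker
    have h0 : L.π (f • bN i₀) = 0 := by
      rw [L.π_smul, RingHom.mem_ker.mp hf, zero_smul]
    simpa using hcoord _ h0 i₀
  let κ := Module.Free.ChooseBasisIndex (MvPowerSeries (Fin r) O) L.N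
  have hπsum : ∀ c : κ → MvPowerSeries (Fin r) O,
      L.π (∑ i, c i • bN i) = ∑ i, L.ψ (c i) • L.π (bN i) := fun c => by
    rw [map_sum]
    simp only [L.π_smul]
  have hli : LinearIndependent R (fun i : κ => L.π (bN i)) := by
    rw [Fintype.linearIndependent_iff]
    intro g hg i
    choose c hc using fun j => L.ψ_surjective (g j)
    have h0 : L.π (∑ j, c j • bN j) = 0 := by rw [hπsum]; simpa [hc] using hg
    have := hcoord _ h0 i
    rw [bN.repr_sum_self] at this
    rw [← hc i]
    exact hIker this
  have hspan : ⊤ ≤ Submodule.span R (Set.range fun i : κ => L.π (bN i)) := by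
    intro y _
    obtain ⟨x, rfl⟩ := L.π_surjective y
    rw [← bN.sum_repr x, hπsum]
    exact Submodule.sum_mem _ fun i _ =>
      Submodule.smul_mem _ _ (Submodule.subset_span (Set.mem_range_self i))
  let bM := Module.Basis.mk hli hspan
  have : Module.Free R M := Module.Free.of_basis bM
  refine ⟨inferInstance, ?_, hker⟩
  rw [eq_bot_iff]
  intro a ha
  have := Module.mem_annihilator.mp ha (bM i₀)
  have h2 := congrArg (fun m => bM.repr m i₀) this
  simpa using h2

end FLTAgent.RTAlgebra
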